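import Fermat.Statements.S49
import Fermat.Prelude.Def_CuspForm_HeckeAlgebra
import Fermat.Prelude.Def_CuspForm_IntegralStructure
import Fermat.Prelude.Thm_CuspForm_intLattice_fg
import Fermat.Prelude.Thm_CuspForm_mem_intLattice_of_mem_heckeAlgebra
import Fermat.Prelude.Thm_ModularFormClass_qCoeff_heckeT
import Fermat.Prelude.Thm_ModularFormClass_qCoeff_heckeU
import Fermat.Prelude.Thm_CongruenceSubgroup_one_mem_strictPeriods_Gamma0

set_option autoImplicit false

namespace Fermat.Agent.S49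

open CuspForm ModularFormClass CongruenceSubgroup UpperHalfPlane EisensteinWeightOne

local notation "Γ₀(" N ")" => CongruenceSubgroup.Gamma0 N

variable {N : ℕ} {k : ℤ}

theorem one_mem_strictPeriods (N : ℕ) :
    (1 : ℝ) ∈ (Subgroup.map (Matrix.SpecialLinearGroup.mapGL ℝ) Γ₀(N)).strictPeriods :=
  CongruenceSubgroup.one_mem_strictPeriods_Gamma0 N

/-- The `n`-th `q`-coefficient as a `ℂ`-linear functional on cusp forms. -/
noncomputable def qLin (N : ℕ) (k : ℤ) (n : ℕ) : CuspForm Γ₀(N) k →ₗ[ℂ] ℂ where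
  toFun f := qCoeff f n
  map_add' f g := by
    simp only [qCoeff, FunLike.coe_add]
    rw [ModularForm.qExpansion_add one_pos (one_mem_strictPeriods N) f g, map_add]
  map_smul' c f := by
    simp only [qCoeff, FunLike.coe_smul]
    rw [ModularForm.qExpansion_smul one_pos (one_mem_strictPeriods N) c f]
    simp

theorem qLin_apply (n : ℕ) (f : CuspForm Γ₀(N) k) : qLin N k n f = qCoeff f n := rfl

/-- `q`-expansion principle for cusp forms on `Γ₀(N)`. -/
theorem eq_zero_of_qCoeff_eq_zero (f : CuspForm Γ₀(N) k) (h : ∀ n, qCoeff f n = 0) : f = 0 := by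
  have hcusp : Fact (IsCusp OnePoint.infty (Subgroup.map (Matrix.SpecialLinearGroup.mapGL ℝ) Γ₀(N))) :=
    ⟨Subgroup.isCusp_of_mem_strictPeriods one_pos (one_mem_strictPeriods N)⟩
  have hq : qExpansion 1 f = 0 := by
    ext n
    simpa [qCoeff] using h n
  have := (UpperHalfPlane.qExpansion_eq_zero_iff (h := 1) one_pos
    (SlashInvariantFormClass.periodic_comp_ofComplex f (one_mem_strictPeriods N))
    (ModularFormClass.holo f) (ModularFormClass.bdd_at_infty f)).1 hq
  exact DFunLike.coe_injective (this.trans (FunLike.coe_zero (F := CuspForm Γ₀(N) k)).symm)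

theorem qCoeff_zero_eq_zero (f : CuspForm Γ₀(N) k) : qCoeff f 0 = 0 :=
  CuspFormClass.qExpansion_coeff_zero f one_pos (one_mem_strictPeriods N)

/-- Membership in the integral lattice in terms of `q`-coefficients. -/
theorem mem_intLattice_iff (f : CuspForm Γ₀(N) k) :
    f ∈ CuspForm.intLattice N k ↔ ∀ n : ℕ, ∃ m : ℤ, qCoeff f n = (m : ℂ) := by
  let M : Submodule ℤ (CuspForm Γ₀(N) k) :=
    { carrier := {f | ∀ n : ℕ, ∃ m : ℤ, qCoeff f n = (m : ℂ)}
      add_mem' := by
        intro f g hf hg n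
        obtain ⟨a, ha⟩ := hf n
        obtain ⟨b, hb⟩ := hg n
        refine ⟨a + b, ?_⟩
        rw [← qLin_apply, map_add, qLin_apply, qLin_apply, ha, hb]
        push_cast
        ring
      zero_mem' := fun n => ⟨0, by rw [← qLin_apply, map_zero]; simp⟩
      smul_mem' := by
        intro c f hf n
        obtain ⟨a, ha⟩ := hf n
        refine ⟨c * a, ?_⟩
        rw [← qLin_apply, map_zsmul, qLin_apply, ha]
        push_cast
        simp }
  have : CuspForm.intLattice N k = M := Submodule.span_eq M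
  rw [this]
  rfl

/-- Under `HasIntegralBasis`, a finite generating set of the integral lattice spans everything. -/
theorem exists_finset_span (h : CuspForm.HasIntegralBasis N) [NeZero N] :
    ∃ G : Finset (CuspForm Γ₀(N) 2), Submodule.span ℤ (G : Set (CuspForm Γ₀(N) 2)) =
      CuspForm.intLattice N 2 ∧ Submodule.span ℂ (G : Set (CuspForm Γ₀(N) 2)) = ⊤ := by
  obtain ⟨G, hG⟩ := CuspForm.intLattice_fg N 2
  refine ⟨G, hG, ?_⟩
  rw [eq_top_iff, ← h, Submodule.span_le]
  intro f hf
  have hf' : f ∈ CuspForm.intLattice N 2 := by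
    rw [mem_intLattice_iff]
    intro n
    obtain ⟨m, hm⟩ := Subring.mem_bot.1 (hf n)
    exact ⟨m, hm.symm⟩
  rw [← hG] at hf'
  exact Submodule.span_subset_span ℤ ℂ _ hf'

theorem finiteDimensional_of_hasIntegralBasis (h : CuspForm.HasIntegralBasis N) [NeZero N] :
    Module.Finite ℂ (CuspForm Γ₀(N) 2) := by
  obtain ⟨G, -, hG⟩ := exists_finset_span h
  exact ⟨⟨G, hG⟩⟩

/-- Under `HasIntegralBasis`, the full Hecke algebra of weight `2` is a finite `ℤ`-module. -/
theorem heckeAlgebra_finite (h : CuspForm.HasIntegralBasis N) [NeZero N] :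
    Module.Finite ℤ (CuspForm.heckeAlgebra N 2 (∅ : Set ℕ)) := by
  obtain ⟨G, hGℤ, hGℂ⟩ := exists_finset_span h
  have hL : IsNoetherian ℤ (CuspForm.intLattice N 2) :=
    isNoetherian_of_fg_of_noetherian _ (CuspForm.intLattice_fg N 2)
  let ev : (CuspForm.heckeAlgebra N 2 (∅ : Set ℕ)) →ₗ[ℤ] (G → CuspForm.intLattice N 2) :=
    { toFun := fun T g => ⟨(T : Module.End ℂ (CuspForm Γ₀(N) 2)) g,
        CuspForm.mem_intLattice_of_mem_heckeAlgebra (by norm_num) T.2
          (hGℤ ▸ Submodule.subset_span g.2)⟩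
      map_add' := by
        intro T T'
        funext g
        apply Subtype.ext
        simp
      map_smul' := by
        intro c T
        funext g
        apply Subtype.ext
        simp }
  have hinj : Function.Injective ev := by
    intro T T' hTT'
    apply Subtype.ext
    apply LinearMap.ext_on hGℂ
    intro g hg
    have := congrFun hTT' ⟨g, hg⟩
    exact congrArg Subtype.val this
  have : IsNoetherian ℤ (CuspForm.heckeAlgebra N 2 (∅ : Set ℕ)) :=
    isNoetherian_of_injective ev hinj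
  infer_instance

/-- Cusp forms all of whose `q`-coefficients are integers divisible by `3`. -/
def IsThreeDiv (f : CuspForm Γ₀(N) k) : Prop := ∀ n : ℕ, ∃ m : ℤ, qCoeff f n = 3 * (m : ℂ)

theorem isThreeDiv_iff (f : CuspForm Γ₀(N) k) :
    IsThreeDiv f ↔ ∃ g ∈ CuspForm.intLattice N k, f = (3 : ℂ) • g := by
  constructor
  · intro hf
    refine ⟨(3 : ℂ)⁻¹ • f, ?_, ?_⟩
    · rw [mem_intLattice_iff]
      intro n
      obtain ⟨m, hm⟩ := hf n
      refine ⟨m, ?_⟩
      rw [← qLin_apply, map_smul, qLin_apply, hm, smul_eq_mul]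
      field_simp
    · rw [smul_smul]
      norm_num
  · rintro ⟨g, hg, rfl⟩ n
    obtain ⟨m, hm⟩ := (mem_intLattice_iff g).1 hg n
    exact ⟨m, by rw [← qLin_apply, map_smul, qLin_apply, hm, smul_eq_mul]⟩

/-- The ideal of Hecke operators killing `f₀` modulo `3`. -/
def congrIdeal [NeZero N] (f₀ : CuspForm Γ₀(N) 2) :
    Ideal (CuspForm.heckeAlgebra N 2 (∅ : Set ℕ)) where
  carrier := {T | IsThreeDiv ((T : Module.End ℂ (CuspForm Γ₀(N) 2)) f₀)}
  add_mem' := by
    intro T T' hT hT' n
    obtain ⟨a, ha⟩ := hT n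
    obtain ⟨b, hb⟩ := hT' n
    refine ⟨a + b, ?_⟩
    rw [Subalgebra.coe_add, LinearMap.add_apply, ← qLin_apply, map_add, qLin_apply, qLin_apply,
      ha, hb]
    push_cast
    ring
  zero_mem' := by
    intro n
    refine ⟨0, ?_⟩
    have h0 : ((0 : CuspForm.heckeAlgebra N 2 (∅ : Set ℕ)) :
        Module.End ℂ (CuspForm Γ₀(N) 2)) f₀ = 0 := by
      rw [ZeroMemClass.coe_zero, LinearMap.zero_apply]
    rw [h0, ← qLin_apply, map_zero]
    simp
  smul_mem' := by
    intro c T hT
    obtain ⟨g, hg, hgeq⟩ := (isThreeDiv_iff _).1 hT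
    show IsThreeDiv _
    rw [smul_eq_mul, Subalgebra.coe_mul, Module.End.mul_apply, hgeq, map_smul]
    exact (isThreeDiv_iff _).2
      ⟨_, CuspForm.mem_intLattice_of_mem_heckeAlgebra (by norm_num) c.2 hg, rfl⟩

theorem mem_congrIdeal [NeZero N] (f₀ : CuspForm Γ₀(N) 2)
    (T : CuspForm.heckeAlgebra N 2 (∅ : Set ℕ)) :
    T ∈ congrIdeal f₀ ↔ IsThreeDiv ((T : Module.End ℂ (CuspForm Γ₀(N) 2)) f₀) := Iff.rfl

end Fermat.Agent.S49
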