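import Mathlib
import Fermat.Prelude.Def_FormalHecke_Eigensystem

set_option autoImplicit false

namespace Fermat.Agent.S49

open FormalHecke

variable {R : Type*} [CommRing R]

/-- In a formal eigensystem, `a (ℓ ^ k * t) = a (ℓ ^ k) * a t` when `ℓ ∤ t`. -/
theorem eig_prime_pow_mul {e a : ℕ → R} (h : IsEigensystem e a) {ℓ : ℕ} (hℓ : ℓ.Prime)
    {t : ℕ} (ht : ¬ ℓ ∣ t) : ∀ k : ℕ, a (ℓ ^ k * t) = a (ℓ ^ k) * a t := by
  obtain ⟨h1, h2⟩ := h
  have step0 : a (ℓ * t) = a ℓ * a t := by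
    have := h2 ℓ hℓ t
    rw [if_neg ht, mul_zero, add_zero] at this
    exact this
  have stepS : ∀ k : ℕ, a (ℓ ^ k * t) = a (ℓ ^ k) * a t →
      a (ℓ ^ (k + 1) * t) = a (ℓ ^ (k + 1)) * a t →
      a (ℓ ^ (k + 2) * t) = a (ℓ ^ (k + 2)) * a t := by
    intro k hk hk1
    have e1 := h2 ℓ hℓ (ℓ ^ (k + 1) * t)
    have e2 := h2 ℓ hℓ (ℓ ^ (k + 1))
    have d1 : ℓ ∣ ℓ ^ (k + 1) * t := Dvd.dvd.mul_right (dvd_pow_self ℓ (Nat.succ_ne_zero k)) t
    have d2 : ℓ ∣ ℓ ^ (k + 1) := dvd_pow_self ℓ (Nat.succ_ne_zero k)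
    have q1 : ℓ ^ (k + 1) * t / ℓ = ℓ ^ k * t := by
      rw [pow_succ, mul_comm (ℓ ^ k) ℓ, mul_assoc]
      exact Nat.mul_div_cancel_left _ hℓ.pos
    have q2 : ℓ ^ (k + 1) / ℓ = ℓ ^ k := by
      rw [pow_succ, mul_comm (ℓ ^ k) ℓ]
      exact Nat.mul_div_cancel_left _ hℓ.pos
    have p1 : ℓ * (ℓ ^ (k + 1) * t) = ℓ ^ (k + 2) * t := by ring
    have p2 : ℓ * ℓ ^ (k + 1) = ℓ ^ (k + 2) := by ring
    rw [if_pos d1, q1, p1, hk, hk1] at e1
    rw [if_pos d2, q2, p2] at e2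
    have e1' : a (ℓ ^ (k + 2) * t) = a ℓ * (a (ℓ ^ (k + 1)) * a t) - e ℓ * (a (ℓ ^ k) * a t) :=
      eq_sub_of_add_eq e1
    have e2' : a (ℓ ^ (k + 2)) = a ℓ * a (ℓ ^ (k + 1)) - e ℓ * a (ℓ ^ k) := eq_sub_of_add_eq e2
    rw [e1', e2']
    ring
  intro k
  induction k using Nat.strong_induction_on with
  | _ k ih =>
    match k, ih with
    | 0, _ => simp [h1]
    | 1, _ => simpa using step0
    | (k + 2), ih => exact stepS k (ih k (by omega)) (ih (k + 1) (by omega))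

/-- A formal eigensystem is multiplicative on coprime arguments. -/
theorem eig_mul_of_coprime {e a : ℕ → R} (h : IsEigensystem e a) :
    ∀ m n : ℕ, m.Coprime n → a (m * n) = a m * a n := by
  intro m
  induction m using Nat.strong_induction_on with
  | _ m ih =>
    intro n hmn
    rcases Nat.eq_zero_or_pos m with rfl | hmpos
    · have hn : n = 1 := by simpa using hmn
      subst hn
      simp [h.1]
    rcases Nat.eq_or_lt_of_le (Nat.succ_le_of_lt hmpos) with hm1 | hm1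
    · have : m = 1 := hm1.symm
      subst this
      simp [h.1]
    -- `m ≥ 2`
    have hm_ne_one : m ≠ 1 := by omega
    set ℓ := m.minFac with hℓdef
    have hℓ : ℓ.Prime := Nat.minFac_prime hm_ne_one
    obtain ⟨k, m', hm', hmeq⟩ :=
      Nat.exists_eq_pow_mul_and_not_dvd (Nat.pos_iff_ne_zero.mp hmpos) ℓ hℓ.ne_one
    have hk : k ≠ 0 := by
      rintro rfl
      apply hm'
      have : ℓ ∣ m := Nat.minFac_dvd m
      rw [hmeq] at this
      simpa using this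
    have hm'pos : 0 < m' := by
      rcases Nat.eq_zero_or_pos m' with h0 | h0
      · exact absurd (h0 ▸ dvd_zero ℓ) hm'
      · exact h0
    have hm'lt : m' < m := by
      rw [hmeq]
      have : 1 < ℓ ^ k := Nat.one_lt_pow hk hℓ.one_lt
      nlinarith
    have hℓm : ℓ ∣ m := Nat.minFac_dvd m
    have hℓn : ¬ ℓ ∣ n := by
      intro hdn
      have := Nat.Coprime.eq_one_of_dvd (Nat.Coprime.coprime_dvd_left hℓm hmn) hdn
      exact hℓ.ne_one this
    have hm'n : m'.Coprime n :=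
      Nat.Coprime.coprime_dvd_left (Dvd.intro_left (ℓ ^ k) hmeq.symm) hmn
    have hnd : ¬ ℓ ∣ m' * n := by
      intro hd
      rcases (Nat.Prime.dvd_mul hℓ).mp hd with hd | hd
      · exact hm' hd
      · exact hℓn hd
    calc a (m * n) = a (ℓ ^ k * (m' * n)) := by rw [hmeq, mul_assoc]
      _ = a (ℓ ^ k) * a (m' * n) := eig_prime_pow_mul h hℓ hnd k
      _ = a (ℓ ^ k) * (a m' * a n) := by rw [ih m' hm'lt n hm'n]
      _ = a (ℓ ^ k * m') * a n := by rw [eig_prime_pow_mul h hℓ hm' k, mul_assoc]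
      _ = a m * a n := by rw [← hmeq]

/-- The prime-power recursion of a formal eigensystem. -/
theorem eig_prime_pow {e a : ℕ → R} (h : IsEigensystem e a) {ℓ : ℕ} (hℓ : ℓ.Prime) (r : ℕ) :
    a (ℓ ^ (r + 2)) = a ℓ * a (ℓ ^ (r + 1)) - e ℓ * a (ℓ ^ r) := by
  have e2 := h.2 ℓ hℓ (ℓ ^ (r + 1))
  have d2 : ℓ ∣ ℓ ^ (r + 1) := dvd_pow_self ℓ (Nat.succ_ne_zero r)
  have q2 : ℓ ^ (r + 1) / ℓ = ℓ ^ r := by
    rw [pow_succ, mul_comm (ℓ ^ r) ℓ]
    exact Nat.mul_div_cancel_left _ hℓ.pos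
  have p2 : ℓ * ℓ ^ (r + 1) = ℓ ^ (r + 2) := by ring
  rw [if_pos d2, q2, p2] at e2
  exact eq_sub_of_add_eq e2

/-- A formal eigensystem is recursive. -/
theorem isRecursive_of_isEigensystem {e a : ℕ → R} (h : IsEigensystem e a) : IsRecursive e a :=
  ⟨h.1, eig_mul_of_coprime h, fun _ r hℓ => eig_prime_pow h hℓ r⟩

end Fermat.Agent.S49
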