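import Fermat.Agent.S49.Ideal
import Fermat.Agent.S49.Formal

set_option autoImplicit false

namespace Fermat.Agent.S49

open CuspForm ModularFormClass CongruenceSubgroup UpperHalfPlane EisensteinWeightOne

local notation "Γ₀(" N ")" => CongruenceSubgroup.Gamma0 N

variable {N : ℕ} [NeZero N]

/-- A simultaneous eigenvector of the full Hecke algebra can be normalised to a normalised
eigenform whose prime coefficients are the eigenvalues. -/
theorem exists_normalized_eigenform (v : CuspForm Γ₀(N) 2) (hv : v ≠ 0)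
    (χ : heckeAlgebra N 2 (∅ : Set ℕ) →+* ℂ)
    (hχ : ∀ T : heckeAlgebra N 2 (∅ : Set ℕ),
      (T : Module.End ℂ (CuspForm Γ₀(N) 2)) v = χ T • v) :
    ∃ f : CuspForm Γ₀(N) 2, f.IsNormalizedEigenform ∧
      ∀ (ℓ : ℕ) (hℓ : ℓ.Prime) (hℓN : ¬ ℓ ∣ N),
        qCoeff f ℓ = χ (heckeAlgebra.T hℓ hℓN (Set.notMem_empty ℓ)) := by
  classical
  set c : ℕ → ℂ := fun n => qCoeff v n with hc
  set lam : ℕ → ℂ := fun ℓ => if hℓ : ℓ.Prime then
    (if hN : ℓ ∣ N then χ (heckeAlgebra.U hℓ hN (Set.notMem_empty ℓ))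
      else χ (heckeAlgebra.T hℓ hN (Set.notMem_empty ℓ))) else 0 with hlam
  set e : ℕ → ℂ := fun ℓ => if ℓ ∣ N then 0 else (ℓ : ℂ) with he
  have hrel : ∀ ℓ : ℕ, ℓ.Prime → ∀ n : ℕ,
      c (ℓ * n) + e ℓ * (if ℓ ∣ n then c (n / ℓ) else 0) = lam ℓ * c n := by
    intro ℓ hℓ n
    by_cases hN : ℓ ∣ N
    · have h1 := hχ (heckeAlgebra.U hℓ hN (Set.notMem_empty ℓ))
      rw [heckeAlgebra.coe_U] at h1
      have h2 := congrArg (qLin N 2 n) h1
      rw [map_smul, qLin_apply, qLin_apply, qCoeff_heckeULin _ hℓ, smul_eq_mul] at h2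
      simp only [hlam, he, hc, dif_pos hℓ, dif_pos hN, if_pos hN, zero_mul, add_zero]
      rw [mul_comm ℓ n]
      exact h2
    · have h1 := hχ (heckeAlgebra.T hℓ hN (Set.notMem_empty ℓ))
      rw [heckeAlgebra.coe_T] at h1
      have h2 := congrArg (qLin N 2 n) h1
      rw [map_smul, qLin_apply, qLin_apply, qCoeff_heckeTLin, smul_eq_mul] at h2
      simp only [hlam, he, hc, dif_pos hℓ, dif_neg hN, if_neg hN]
      rw [mul_comm ℓ n, ← h2]
      split_ifs <;> simp
  have hc1 : c 1 ≠ 0 := by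
    intro h1
    apply hv
    apply eq_zero_of_qCoeff_eq_zero
    intro n
    induction n using Nat.strong_induction_on with
    | _ n ih =>
      rcases Nat.lt_or_ge n 2 with hn | hn
      · interval_cases n
        · exact qCoeff_zero_eq_zero v
        · exact h1
      · have hℓ : (n.minFac).Prime := Nat.minFac_prime (by omega)
        obtain ⟨m, hm⟩ := Nat.minFac_dvd n
        have hm0 : 0 < m := by
          rcases Nat.eq_zero_or_pos m with h0 | h0
          · rw [h0, mul_zero] at hm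
            omega
          · exact h0
        have hmn : m < n := by
          have := hℓ.one_lt
          rw [hm]
          nlinarith
        have hdiv : m / n.minFac < n := lt_of_le_of_lt (Nat.div_le_self _ _) hmn
        have h3 := hrel n.minFac hℓ m
        have h4 : c m = 0 := ih m hmn
        have h5 : c (m / n.minFac) = 0 := ih _ hdiv
        rw [h4, h5] at h3
        simp only [ite_self, mul_zero, add_zero] at h3
        rw [← hm] at h3
        exact h3
  set f : CuspForm Γ₀(N) 2 := (c 1)⁻¹ • v with hf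
  set c' : ℕ → ℂ := fun n => qCoeff f n with hc'
  have hc'c : ∀ n, c' n = (c 1)⁻¹ * c n := by
    intro n
    simp only [hc', hc, hf]
    rw [← qLin_apply, map_smul, qLin_apply, smul_eq_mul]
  have hc'1 : c' 1 = 1 := by
    rw [hc'c, inv_mul_cancel₀ hc1]
  have hrel' : ∀ ℓ : ℕ, ℓ.Prime → ∀ n : ℕ,
      c' (ℓ * n) + e ℓ * (if ℓ ∣ n then c' (n / ℓ) else 0) = lam ℓ * c' n := by
    intro ℓ hℓ n
    rw [hc'c, hc'c, hc'c]
    have := hrel ℓ hℓ n
    split_ifs at this ⊢ with hd
    · linear_combination (c 1)⁻¹ * this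
    · linear_combination (c 1)⁻¹ * this
  have hlam' : ∀ ℓ : ℕ, ℓ.Prime → c' ℓ = lam ℓ := by
    intro ℓ hℓ
    have := hrel' ℓ hℓ 1
    have hnd : ¬ ℓ ∣ 1 := by
      intro hd
      exact hℓ.ne_one (Nat.dvd_one.mp hd)
    rw [if_neg hnd, mul_zero, add_zero, mul_one, hc'1, mul_one] at this
    exact this
  have heig' : FormalHecke.IsEigensystem e c' := by
    refine ⟨hc'1, fun ℓ hℓ n => ?_⟩
    rw [hlam' ℓ hℓ]
    exact hrel' ℓ hℓ n
  refine ⟨f, ⟨hc'1, eig_mul_of_coprime heig', ?_, ?_⟩, ?_⟩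
  · intro p r hp hpN
    have := eig_prime_pow heig' hp r
    simp only [he, if_neg hpN] at this
    exact this
  · intro p r hp hpN
    have := eig_prime_pow heig' hp r
    simp only [he, if_pos hpN, zero_mul, sub_zero] at this
    exact this
  · intro ℓ hℓ hℓN
    have := hlam' ℓ hℓ
    simp only [hlam, dif_pos hℓ, dif_neg hℓN] at this
    exact this

end Fermat.Agent.S49
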