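import Mathlib

/-!
# Abstract Deligne–Serre lifting lemma (piece of S49)

Pure Mathlib; no Prelude definitions are used.
-/

set_option autoImplicit false

namespace Fermat.Agent.S49

open Module

/-- A commuting family of endomorphisms of a finite-dimensional vector space over an
algebraically closed field has a common eigenvector in every nonzero invariant subspace. -/
theorem exists_common_eigenvector {K V ι : Type*} [Field K] [IsAlgClosed K] [AddCommGroup V]
    [Module K V] [FiniteDimensional K V] (f : ι → Module.End K V)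
    (hcomm : ∀ i j, Commute (f i) (f j)) :
    ∀ (W : Submodule K V), W ≠ ⊥ → (∀ i, ∀ x ∈ W, f i x ∈ W) →
      ∃ v ∈ W, v ≠ 0 ∧ ∀ i, ∃ c : K, f i v = c • v := by
  intro W
  induction' hn : finrank K W using Nat.strong_induction_on with n ih generalizing W
  intro hW hinv
  by_cases hscal : ∀ i, ∃ c : K, ∀ x ∈ W, f i x = c • x
  · obtain ⟨v, hvW, hv0⟩ := (Submodule.ne_bot_iff W).1 hW
    exact ⟨v, hvW, hv0, fun i => (hscal i).imp fun c hc => hc v hvW⟩
  · push Not at hscal
    obtain ⟨i, hi⟩ := hscal
    have : Nontrivial W := Submodule.nontrivial_iff_ne_bot.2 hW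
    obtain ⟨c, hc⟩ := Module.End.exists_eigenvalue ((f i).restrict (hinv i))
    obtain ⟨w, hw⟩ := hc.exists_hasEigenvector
    have hw1 : f i (w : V) = c • (w : V) := by
      have := Module.End.mem_eigenspace_iff.1 hw.1
      have h2 := congrArg Subtype.val this
      simpa using h2
    have hw0 : (w : V) ≠ 0 := fun h => hw.2 (Subtype.ext h)
    set E : Submodule K V := W ⊓ Module.End.eigenspace (f i) c with hE
    have hEW : E ≤ W := inf_le_left
    have hEne : E ≠ ⊥ := by
      intro h
      have : (w : V) ∈ E := ⟨w.2, Module.End.mem_eigenspace_iff.2 hw1⟩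
      rw [h] at this
      exact hw0 ((Submodule.mem_bot K).1 this)
    have hElt : E < W := by
      refine lt_of_le_of_ne hEW fun h => ?_
      obtain ⟨x, hxW, hx⟩ := hi c
      have : x ∈ E := h ▸ hxW
      exact hx (Module.End.mem_eigenspace_iff.1 this.2)
    have hEinv : ∀ j, ∀ x ∈ E, f j x ∈ E := by
      intro j x hx
      refine ⟨hinv j x hx.1, Module.End.mem_eigenspace_iff.2 ?_⟩
      have h1 : f i x = c • x := Module.End.mem_eigenspace_iff.1 hx.2
      have h2 : f i (f j x) = f j (f i x) := by
        have := (hcomm i j).eq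
        exact congrArg (fun g : Module.End K V => g x) this
      rw [h2, h1, map_smul]
    have hlt : finrank K E < n := hn ▸ Submodule.finrank_lt_finrank_of_lt hElt
    obtain ⟨v, hvE, hv0, hv⟩ := ih _ hlt E rfl hEne hEinv
    exact ⟨v, hEW hvE, hv0, hv⟩

/-- **Deligne–Serre lifting lemma**, abstract form.  A commutative ring `T` acts on a
finite-dimensional complex vector space through integral endomorphisms, and `m` is a prime
ideal of `T` containing the kernel of the action.  Then there is a common eigenvector whose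
eigencharacter `χ : T → ℂ` sends `m` into a maximal ideal of the ring of algebraic integers. -/
theorem exists_eigenvector_lift {T : Type*} [CommRing T] {V : Type*} [AddCommGroup V]
    [Module ℂ V] [FiniteDimensional ℂ V] (φ : T →+* Module.End ℂ V)
    (hint : ∀ t : T, IsIntegral ℤ (φ t)) (m : Ideal T) (hm : m.IsPrime)
    (hker : RingHom.ker φ ≤ m) :
    ∃ (f : V) (χ : T →+* ℂ), f ≠ 0 ∧ (∀ t : T, φ t f = χ t • f) ∧
      ∃ 𝔪' : Ideal (integralClosure ℤ ℂ), 𝔪'.IsMaximal ∧
        ∀ t ∈ m, ∃ c : integralClosure ℤ ℂ, (c : ℂ) = χ t ∧ c ∈ 𝔪' := by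
  classical
  -- Step 1: an element outside `m` of minimal rank
  have hex : ∃ n : ℕ, ∃ P : T, P ∉ m ∧ finrank ℂ (LinearMap.range (φ P)) = n :=
    ⟨_, 1, fun h => hm.ne_top ((Ideal.eq_top_iff_one m).2 h), rfl⟩
  obtain ⟨P, hPm, hPn⟩ := Nat.find_spec hex
  have hmin : ∀ Q : T, Q ∉ m →
      finrank ℂ (LinearMap.range (φ P)) ≤ finrank ℂ (LinearMap.range (φ Q)) := by
    intro Q hQ
    rw [hPn]
    exact Nat.find_min' hex ⟨Q, hQ, rfl⟩
  set W : Submodule ℂ V := LinearMap.range (φ P) with hW
  have hWne : W ≠ ⊥ := by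
    intro h
    apply hPm
    apply hker
    rw [RingHom.mem_ker]
    exact LinearMap.range_eq_bot.1 h
  have hinv : ∀ t : T, ∀ x ∈ W, φ t x ∈ W := by
    rintro t x ⟨y, rfl⟩
    refine ⟨φ t y, ?_⟩
    have h1 : φ P (φ t y) = (φ (P * t)) y := by rw [map_mul]; rfl
    have h2 : φ t (φ P y) = (φ (t * P)) y := by rw [map_mul]; rfl
    rw [h1, h2, mul_comm]
  have hcomm : ∀ s t : T, Commute (φ s) (φ t) := fun s t => by
    show φ s * φ t = φ t * φ s
    rw [← map_mul, ← map_mul, mul_comm]
  -- Step 2: a common eigenvector in `W`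
  obtain ⟨v, hvW, hv0, hv⟩ := exists_common_eigenvector (fun t : T => φ t) hcomm W hWne hinv
  choose χ₀ hχ₀ using hv
  have hinj : ∀ a b : ℂ, a • v = b • v → a = b := fun a b h => smul_left_injective ℂ hv0 h
  let χ : T →+* ℂ :=
    { toFun := χ₀
      map_one' := hinj _ _ (by rw [← hχ₀, map_one, one_smul]; rfl)
      map_mul' := fun s t => hinj _ _ (by
        rw [← hχ₀, map_mul, mul_smul]
        show φ s (φ t v) = _
        rw [hχ₀ t, map_smul, hχ₀ s, smul_comm])
      map_zero' := hinj _ _ (by rw [← hχ₀, map_zero, zero_smul]; rfl)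
      map_add' := fun s t => hinj _ _ (by
        rw [← hχ₀, map_add, add_smul, ← hχ₀, ← hχ₀]; rfl) }
  have hχ : ∀ t : T, φ t v = χ t • v := hχ₀
  -- Step 3: `χ t ≠ 0` for `t ∉ m`
  have hχne : ∀ t : T, t ∉ m → χ t ≠ 0 := by
    intro t ht h0
    have htP : t * P ∉ m := fun h => (hm.mem_or_mem h).elim ht hPm
    have hle := hmin (t * P) htP
    set g : W →ₗ[ℂ] V := (φ t).comp W.subtype with hg
    have hrange : LinearMap.range g = LinearMap.range (φ (t * P)) := by
      rw [hg, LinearMap.range_comp, Submodule.range_subtype, hW, ← LinearMap.range_comp,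
        map_mul]
      rfl
    have hkerg : LinearMap.ker g ≠ ⊥ := by
      intro h
      have hmem : (⟨v, hvW⟩ : W) ∈ LinearMap.ker g := by
        rw [LinearMap.mem_ker]
        show φ t v = 0
        rw [hχ t, h0, zero_smul]
      rw [h, Submodule.mem_bot] at hmem
      exact hv0 (congrArg Subtype.val hmem)
    have hpos : 0 < finrank ℂ (LinearMap.ker g) := by
      rw [Module.finrank_pos_iff]
      exact Submodule.nontrivial_iff_ne_bot.2 hkerg
    have hrn := LinearMap.finrank_range_add_finrank_ker g
    rw [hrange] at hrn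
    omega
  -- Step 4: integrality of the eigencharacter
  have hχint : ∀ t : T, χ t ∈ integralClosure ℤ ℂ := by
    intro t
    obtain ⟨p, hp, hp0⟩ := hint t
    refine ⟨p, hp, ?_⟩
    have hev : (φ t).HasEigenvector (χ t) v :=
      ⟨Module.End.mem_eigenspace_iff.2 (hχ t), hv0⟩
    have h1 := Module.End.aeval_apply_of_hasEigenvector (p := p.map (algebraMap ℤ ℂ)) hev
    rw [Polynomial.aeval_map_algebraMap] at h1
    have h2 : Polynomial.aeval (φ t) p = 0 := by
      rw [Polynomial.aeval_def]
      convert hp0 using 2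
    rw [h2, LinearMap.zero_apply, Polynomial.eval_map] at h1
    exact (smul_eq_zero.1 h1.symm).resolve_right hv0
  let χ' : T →+* integralClosure ℤ ℂ := χ.codRestrict (integralClosure ℤ ℂ) hχint
  have hχ' : ∀ t : T, ((χ' t : integralClosure ℤ ℂ) : ℂ) = χ t := fun t => rfl
  -- Step 5: lying over
  let _ : Algebra T (integralClosure ℤ ℂ) := χ'.toAlgebra
  have : Algebra.IsIntegral T (integralClosure ℤ ℂ) :=
    ⟨fun x => (Algebra.IsIntegral.isIntegral (R := ℤ) x).tower_top⟩
  have := hm
  have hbot : Ideal.comap (algebraMap T (integralClosure ℤ ℂ)) ⊥ ≤ m := by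
    intro t ht
    by_contra htm
    apply hχne t htm
    rw [Ideal.mem_comap, Ideal.mem_bot] at ht
    have : (χ' t : ℂ) = 0 := by
      have h3 : χ' t = 0 := ht
      rw [h3]; rfl
    rw [← hχ' t, this]
  obtain ⟨Q, -, hQprime, hQ⟩ := Ideal.exists_ideal_over_prime_of_isIntegral m ⊥ hbot
  obtain ⟨𝔪', h𝔪', hQle⟩ := Ideal.exists_le_maximal Q hQprime.ne_top
  refine ⟨v, χ, hv0, hχ, 𝔪', h𝔪', fun t ht => ⟨χ' t, hχ' t, hQle ?_⟩⟩
  have : t ∈ Ideal.comap (algebraMap T (integralClosure ℤ ℂ)) Q := hQ ▸ ht
  exact this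

/-- A complex vector space spanned by a finitely generated subgroup is finite-dimensional. -/
theorem finiteDimensional_of_lattice {V : Type*} [AddCommGroup V] [Module ℂ V]
    (L : Submodule ℤ V) (hfg : L.FG) (hspan : Submodule.span ℂ (L : Set V) = ⊤) :
    FiniteDimensional ℂ V := by
  obtain ⟨s, hs⟩ := hfg
  refine ⟨⟨s, ?_⟩⟩
  rw [← hspan, ← hs, Submodule.span_span_of_tower]

/-- An endomorphism of a complex vector space that preserves a finitely generated subgroup
spanning the space is integral over `ℤ`. -/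
theorem isIntegral_of_mapsTo_lattice {V : Type*} [AddCommGroup V] [Module ℂ V]
    (L : Submodule ℤ V) (hfg : L.FG) (hspan : Submodule.span ℂ (L : Set V) = ⊤)
    (t : Module.End ℂ V) (ht : ∀ x ∈ L, t x ∈ L) : IsIntegral ℤ t := by
  have : Module.Finite ℤ L := Module.Finite.iff_fg.2 hfg
  let tL : Module.End ℤ L := (t.restrictScalars ℤ).restrict ht
  have htL : ∀ x : L, ((tL x : L) : V) = t (x : V) := fun x => rfl
  obtain ⟨p, hp, hp0⟩ := Algebra.IsIntegral.isIntegral (R := ℤ) tL
  refine ⟨p, hp, ?_⟩
  have key : ∀ q : Polynomial ℤ, ∀ x : L,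
      (Polynomial.aeval t q) (x : V) = ((Polynomial.aeval tL q) x : V) := by
    intro q
    induction q using Polynomial.induction_on with
    | C a =>
      intro x
      simp
    | add p q hp hq =>
      intro x
      simp [map_add, hp x, hq x]
    | monomial n a h =>
      intro x
      have h1 : Polynomial.aeval t (Polynomial.C a * Polynomial.X ^ (n + 1)) =
          Polynomial.aeval t (Polynomial.C a * Polynomial.X ^ n) * t := by
        rw [pow_succ, ← mul_assoc, map_mul, Polynomial.aeval_X]
      have h2 : Polynomial.aeval tL (Polynomial.C a * Polynomial.X ^ (n + 1)) =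
          Polynomial.aeval tL (Polynomial.C a * Polynomial.X ^ n) * tL := by
        rw [pow_succ, ← mul_assoc, map_mul, Polynomial.aeval_X]
      rw [h1, h2, Module.End.mul_apply, Module.End.mul_apply, ← htL x, h (tL x)]
  have h0 : Polynomial.aeval t p = 0 := by
    apply LinearMap.ext_on hspan
    intro x hx
    have := key p ⟨x, hx⟩
    have hp0' : Polynomial.aeval tL p = 0 := hp0
    rw [hp0'] at this
    simpa using this
  rw [← h0, Polynomial.aeval_def]

end Fermat.Agent.S49
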