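import Mathlib

set_option autoImplicit false

namespace Fermat.Agent.S49

open Module

/-- Deligne–Serre style lemma (linear algebra part): a commutative ring `A` acting faithfully on a
finite-dimensional vector space over an algebraically closed field has, for every prime ideal
`𝔪`, a simultaneous eigenvector whose eigencharacter has kernel contained in `𝔪`. -/
theorem exists_eigenvector_ker_le {K V A : Type*} [Field K] [IsAlgClosed K] [AddCommGroup V]
    [Module K V] [FiniteDimensional K V] [CommRing A] (ι : A →+* Module.End K V)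
    (hι : Function.Injective ι) (𝔪 : Ideal A) [h𝔪 : 𝔪.IsPrime] :
    ∃ (v : V) (χ : A →+* K), v ≠ 0 ∧ (∀ T : A, ι T v = χ T • v) ∧ RingHom.ker χ ≤ 𝔪 := by
  classical
  -- Step 1: choose `P ∉ 𝔪` whose range has minimal dimension.
  have hne : ∃ n, ∃ P : A, P ∉ 𝔪 ∧ finrank K (LinearMap.range (ι P)) = n :=
    ⟨_, 1, (Ideal.ne_top_iff_one 𝔪).1 h𝔪.ne_top, rfl⟩
  obtain ⟨P, hP, hPn⟩ := Nat.find_spec hne
  have hmin : ∀ Q : A, Q ∉ 𝔪 →
      finrank K (LinearMap.range (ι P)) ≤ finrank K (LinearMap.range (ι Q)) := by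
    intro Q hQ
    rw [hPn]
    exact Nat.find_min' hne ⟨Q, hQ, rfl⟩
  set W : Submodule K V := LinearMap.range (ι P) with hW
  have hWne : W ≠ ⊥ := by
    intro h
    have h0 : ι P = 0 := LinearMap.range_eq_bot.1 h
    have : P = 0 := hι (by rw [h0, map_zero])
    exact hP (this ▸ 𝔪.zero_mem)
  have hcomm : ∀ (T T' : A) (v : V), ι T (ι T' v) = ι T' (ι T v) := by
    intro T T' v
    rw [← Module.End.mul_apply, ← Module.End.mul_apply, ← map_mul, ← map_mul, mul_comm]
  have hWst : ∀ T : A, ∀ w ∈ W, ι T w ∈ W := by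
    rintro T _ ⟨v, rfl⟩
    exact ⟨ι T v, (hcomm T P v).symm⟩
  -- every `T ∉ 𝔪` is injective on `W`
  have hinj : ∀ T : A, T ∉ 𝔪 → ∀ w ∈ W, ι T w = 0 → w = 0 := by
    intro T hT
    have hTP : T * P ∉ 𝔪 := fun h => (h𝔪.mem_or_mem h).elim hT hP
    have hle : LinearMap.range (ι (T * P)) ≤ W := by
      rintro _ ⟨v, rfl⟩
      rw [map_mul, Module.End.mul_apply]
      exact hWst T _ ⟨v, rfl⟩
    have heq : LinearMap.range (ι (T * P)) = W :=
      Submodule.eq_of_le_of_finrank_le hle (hmin _ hTP)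
    let TW : W →ₗ[K] W := (ι T).restrict (hWst T)
    have hsurj : Function.Surjective TW := by
      rintro ⟨w, hw⟩
      have hw' := hw
      rw [← heq] at hw'
      obtain ⟨v, rfl⟩ := hw'
      refine ⟨⟨ι P v, ⟨v, rfl⟩⟩, Subtype.ext ?_⟩
      simp [TW, map_mul, Module.End.mul_apply]
    have hinj' : Function.Injective TW := LinearMap.injective_iff_surjective.2 hsurj
    intro w hw h0
    have h1 : TW ⟨w, hw⟩ = TW 0 := by
      apply Subtype.ext
      simp [TW, h0]
    have := hinj' h1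
    simpa using congrArg Subtype.val this
  -- Step 2: a minimal nonzero stable subspace `W' ≤ W`.
  have hne2 : ∃ n, ∃ W' : Submodule K V, W' ≤ W ∧ W' ≠ ⊥ ∧ (∀ T : A, ∀ w ∈ W', ι T w ∈ W') ∧
      finrank K W' = n := ⟨_, W, le_rfl, hWne, hWst, rfl⟩
  obtain ⟨W', hW'W, hW'ne, hW'st, hW'n⟩ := Nat.find_spec hne2
  have hmin2 : ∀ W'' : Submodule K V, W'' ≤ W → W'' ≠ ⊥ → (∀ T : A, ∀ w ∈ W'', ι T w ∈ W'') →
      finrank K W' ≤ finrank K W'' := by
    intro W'' h1 h2 h3
    rw [hW'n]
    exact Nat.find_min' hne2 ⟨W'', h1, h2, h3, rfl⟩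
  -- each `T` acts on `W'` as a scalar
  have hscal : ∀ T : A, ∃ μ : K, ∀ w ∈ W', ι T w = μ • w := by
    intro T
    let TW' : Module.End K W' := (ι T).restrict (hW'st T)
    have : Nontrivial W' := (Submodule.nontrivial_iff_ne_bot).2 hW'ne
    obtain ⟨μ, hμ⟩ := Module.End.exists_eigenvalue TW'
    obtain ⟨u, hu⟩ := hμ.exists_hasEigenvector
    refine ⟨μ, ?_⟩
    set W'' : Submodule K V := W' ⊓ LinearMap.ker (ι T - μ • (1 : Module.End K V)) with hW''
    have hmem : ∀ w : V, w ∈ W'' ↔ w ∈ W' ∧ ι T w = μ • w := by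
      intro w
      rw [hW'', Submodule.mem_inf, LinearMap.mem_ker]
      simp [sub_eq_zero]
    have h1 : W'' ≤ W := inf_le_left.trans hW'W
    have h2 : W'' ≠ ⊥ := by
      intro hbot
      have hu1 : (u : V) ∈ W'' := by
        rw [hmem]
        refine ⟨u.2, ?_⟩
        have := hu.apply_eq_smul
        have h' := congrArg Subtype.val this
        simpa [TW'] using h'
      rw [hbot, Submodule.mem_bot] at hu1
      exact hu.2 (Subtype.ext hu1)
    have h3 : ∀ T' : A, ∀ w ∈ W'', ι T' w ∈ W'' := by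
      intro T' w hw
      rw [hmem] at hw ⊢
      refine ⟨hW'st T' w hw.1, ?_⟩
      rw [hcomm T T' w, hw.2, map_smul]
    have h4 : W'' = W' := Submodule.eq_of_le_of_finrank_le inf_le_left (hmin2 W'' h1 h2 h3)
    intro w hw
    rw [← h4] at hw
    exact ((hmem w).1 hw).2
  obtain ⟨v, hvW', hv0⟩ := Submodule.exists_mem_ne_zero_of_ne_bot hW'ne
  choose χ hχ using hscal
  have key : ∀ a b : K, a • v = b • v → a = b := fun a b h => smul_left_injective K hv0 h
  have hχv : ∀ T : A, ι T v = χ T • v := fun T => hχ T v hvW'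
  have hone : χ 1 = 1 := by
    apply key
    rw [← hχv, map_one, Module.End.one_apply, one_smul]
  have hmul : ∀ x y : A, χ (x * y) = χ x * χ y := by
    intro x y
    apply key
    rw [← hχv, map_mul, Module.End.mul_apply, hχv y, map_smul, hχv x, smul_smul, mul_comm]
  have hzero : χ 0 = 0 := by
    apply key
    rw [← hχv, map_zero, LinearMap.zero_apply, zero_smul]
  have hadd : ∀ x y : A, χ (x + y) = χ x + χ y := by
    intro x y
    apply key
    rw [← hχv, map_add, LinearMap.add_apply, hχv, hχv, add_smul]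
  refine ⟨v, ⟨⟨⟨χ, hone⟩, hmul⟩, hzero, hadd⟩, hv0, hχv, ?_⟩
  intro T hT
  by_contra hTm
  have hT0 : χ T = 0 := hT
  have : ι T v = 0 := by rw [hχv, hT0, zero_smul]
  exact hv0 (hinj T hTm v (hW'W hvW') this)

end Fermat.Agent.S49
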