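import Fermat.Agent.S49.Lattice

set_option autoImplicit false

namespace Fermat.Agent.S49

open CuspForm ModularFormClass CongruenceSubgroup UpperHalfPlane EisensteinWeightOne

local notation "Γ₀(" N ")" => CongruenceSubgroup.Gamma0 N

variable {N : ℕ}

/-- The Eisenstein series `E_{1,χ}` is `1` modulo `3`, so the bridge product is congruent to the
original coefficients. -/
theorem three_dvd_bridge_sub (a : ℕ → ℤ) (n : ℕ) :
    (3 : ℤ) ∣ (bridgeProduct a).coeff n - a n := by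
  have hE : e1Chi3In ℤ = 1 + PowerSeries.C (3 : ℤ) * PowerSeries.mk
      (fun n => if n = 0 then (0 : ℤ) else 2 * sigmaChi n) := by
    ext m
    simp only [e1Chi3In, e1Chi3, PowerSeries.coeff_map, PowerSeries.coeff_mk, map_add,
      PowerSeries.coeff_one, PowerSeries.coeff_C_mul, Int.coe_castRingHom, Int.cast_id]
    split_ifs <;> ring
  have h1 : (bridgeProduct a).coeff n =
      a n + 3 * (PowerSeries.mk a * PowerSeries.mk
        (fun n => if n = 0 then (0 : ℤ) else 2 * sigmaChi n)).coeff n := by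
    rw [bridgeProduct, hE, mul_add, mul_one, map_add, PowerSeries.coeff_mk, mul_left_comm,
      PowerSeries.coeff_C_mul]
  rw [h1, add_sub_cancel_left]
  exact Dvd.intro _ rfl

theorem chiNegThree_cast (ℓ : ℕ) : ((chiNegThree ℓ : ℤ) : ZMod 3) = (ℓ : ZMod 3) := by
  have h : (ℓ : ZMod 3) = ((ℓ % 3 : ℕ) : ZMod 3) := (ZMod.natCast_mod ℓ 3).symm
  rw [h, chiNegThree]
  have h3 : ℓ % 3 < 3 := Nat.mod_lt _ (by norm_num)
  interval_cases (ℓ % 3) <;> simp <;> decide

theorem three_dvd_of_cast_eq_zero {x : ℤ} (h : (x : ZMod 3) = 0) : (3 : ℤ) ∣ x := by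
  have := (ZMod.intCast_zmod_eq_zero_iff_dvd x 3).1 h
  exact_mod_cast this

theorem cast_eq_of_three_dvd_sub {x y : ℤ} (h : (3 : ℤ) ∣ x - y) : (x : ZMod 3) = (y : ZMod 3) := by
  have := (ZMod.intCast_eq_intCast_iff_dvd_sub y x 3).2 (by exact_mod_cast h)
  exact this.symm

/-- Integer form of the congruence for `T_ℓ`, `ℓ ∤ N`. -/
theorem three_dvd_T {a af : ℕ → ℤ}
    (heig : FormalHecke.IsEigensystem
      (fun ℓ => if ℓ ∣ N then 0 else ((chiNegThree ℓ : ℤ) : ℤ)) a)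
    (haf : ∀ n, (3 : ℤ) ∣ af n - a n) {ℓ : ℕ} (hℓ : ℓ.Prime) (hℓN : ¬ ℓ ∣ N) (n : ℕ) :
    (3 : ℤ) ∣ af (n * ℓ) + (if ℓ ∣ n then (ℓ : ℤ) * af (n / ℓ) else 0) - a ℓ * af n := by
  have key := heig.2 ℓ hℓ n
  simp only [if_neg hℓN] at key
  have hc : ∀ m, (af m : ZMod 3) = (a m : ZMod 3) := fun m => cast_eq_of_three_dvd_sub (haf m)
  have key' := congrArg (Int.cast : ℤ → ZMod 3) key
  apply three_dvd_of_cast_eq_zero
  rw [mul_comm ℓ n] at key'
  by_cases hd : ℓ ∣ n
  · simp only [if_pos hd] at key' ⊢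
    push_cast at key' ⊢
    rw [hc, hc, hc, ← key', chiNegThree_cast]
    ring
  · simp only [if_neg hd] at key' ⊢
    push_cast at key' ⊢
    rw [hc, hc, ← key']
    ring

/-- Integer form of the congruence for `U_q`, `q ∣ N`. -/
theorem three_dvd_U {a af : ℕ → ℤ}
    (heig : FormalHecke.IsEigensystem
      (fun ℓ => if ℓ ∣ N then 0 else ((chiNegThree ℓ : ℤ) : ℤ)) a)
    (haf : ∀ n, (3 : ℤ) ∣ af n - a n) {q : ℕ} (hq : q.Prime) (hqN : q ∣ N) (n : ℕ) :
    (3 : ℤ) ∣ af (n * q) - a q * af n := by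
  have key := heig.2 q hq n
  simp only [if_pos hqN, zero_mul, add_zero] at key
  have hc : ∀ m, (af m : ZMod 3) = (a m : ZMod 3) := fun m => cast_eq_of_three_dvd_sub (haf m)
  have key' := congrArg (Int.cast : ℤ → ZMod 3) key
  apply three_dvd_of_cast_eq_zero
  rw [mul_comm q n] at key'
  push_cast at key' ⊢
  rw [hc, hc, ← key']
  ring

end Fermat.Agent.S49
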