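import Fermat.Agent.S49.Congr

set_option autoImplicit false

namespace Fermat.Agent.S49

open CuspForm ModularFormClass CongruenceSubgroup UpperHalfPlane EisensteinWeightOne

local notation "Γ₀(" N ")" => CongruenceSubgroup.Gamma0 N

variable {N : ℕ} [NeZero N]

omit [NeZero N] in
theorem qCoeff_heckeTLin (f : CuspForm Γ₀(N) 2) {ℓ : ℕ} (hℓ : ℓ.Prime) (hℓN : ¬ ℓ ∣ N) (n : ℕ) :
    qCoeff (heckeTLin 2 hℓ hℓN f) n =
      qCoeff f (n * ℓ) + if ℓ ∣ n then (ℓ : ℂ) * qCoeff f (n / ℓ) else 0 := by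
  rw [CuspForm.coe_heckeTLin_apply,
    ModularFormClass.qCoeff_heckeT f (one_mem_strictPeriods N) hℓ.ne_zero n,
    ModularForm.coeffHeckeT_apply]
  norm_num

theorem qCoeff_heckeULin (f : CuspForm Γ₀(N) 2) {q : ℕ} (hq : q.Prime) (hqN : q ∣ N) (n : ℕ) :
    qCoeff (heckeULin 2 hqN f) n = qCoeff f (n * q) := by
  rw [CuspForm.coe_heckeULin_apply,
    ModularFormClass.qCoeff_heckeU f (one_mem_strictPeriods N) hq.ne_zero n,
    ModularForm.coeffHeckeU_apply]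

theorem T_sub_mem_congrIdeal {a af : ℕ → ℤ}
    (heig : FormalHecke.IsEigensystem
      (fun ℓ => if ℓ ∣ N then 0 else ((chiNegThree ℓ : ℤ) : ℤ)) a)
    (haf : ∀ n, (3 : ℤ) ∣ af n - a n) {f₀ : CuspForm Γ₀(N) 2}
    (hf₀ : ∀ n, (af n : ℂ) = qCoeff f₀ n) {ℓ : ℕ} (hℓ : ℓ.Prime) (hℓN : ¬ ℓ ∣ N) :
    (heckeAlgebra.T hℓ hℓN (Set.notMem_empty ℓ) : heckeAlgebra N 2 (∅ : Set ℕ)) -
      ((a ℓ : ℤ) : heckeAlgebra N 2 (∅ : Set ℕ)) ∈ congrIdeal f₀ := by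
  rw [mem_congrIdeal]
  intro n
  obtain ⟨m, hm⟩ := three_dvd_T heig haf hℓ hℓN n
  refine ⟨m, ?_⟩
  have h1 : ((heckeAlgebra.T hℓ hℓN (Set.notMem_empty ℓ) -
      ((a ℓ : ℤ) : heckeAlgebra N 2 (∅ : Set ℕ)) : heckeAlgebra N 2 (∅ : Set ℕ)) :
        Module.End ℂ (CuspForm Γ₀(N) 2)) f₀ = heckeTLin 2 hℓ hℓN f₀ - (a ℓ : ℂ) • f₀ := by
    rw [AddSubgroupClass.coe_sub, heckeAlgebra.coe_T, LinearMap.sub_apply]
    congr 1
    have : (((a ℓ : ℤ) : heckeAlgebra N 2 (∅ : Set ℕ)) : Module.End ℂ (CuspForm Γ₀(N) 2)) =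
        ((a ℓ : ℤ) : Module.End ℂ (CuspForm Γ₀(N) 2)) := by
      norm_cast
    rw [this, Module.End.intCast_apply]
    norm_cast
  rw [h1, ← qLin_apply, map_sub, map_smul, qLin_apply, qLin_apply, qCoeff_heckeTLin,
    ← hf₀, ← hf₀, ← hf₀, smul_eq_mul]
  have hm' := congrArg (Int.cast : ℤ → ℂ) hm
  by_cases hd : ℓ ∣ n
  · simp only [if_pos hd] at hm' ⊢
    push_cast at hm'
    exact hm'
  · simp only [if_neg hd] at hm' ⊢
    push_cast at hm'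
    exact hm'

theorem U_sub_mem_congrIdeal {a af : ℕ → ℤ}
    (heig : FormalHecke.IsEigensystem
      (fun ℓ => if ℓ ∣ N then 0 else ((chiNegThree ℓ : ℤ) : ℤ)) a)
    (haf : ∀ n, (3 : ℤ) ∣ af n - a n) {f₀ : CuspForm Γ₀(N) 2}
    (hf₀ : ∀ n, (af n : ℂ) = qCoeff f₀ n) {q : ℕ} (hq : q.Prime) (hqN : q ∣ N) :
    (heckeAlgebra.U hq hqN (Set.notMem_empty q) : heckeAlgebra N 2 (∅ : Set ℕ)) -
      ((a q : ℤ) : heckeAlgebra N 2 (∅ : Set ℕ)) ∈ congrIdeal f₀ := by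
  rw [mem_congrIdeal]
  intro n
  obtain ⟨m, hm⟩ := three_dvd_U heig haf hq hqN n
  refine ⟨m, ?_⟩
  have h1 : ((heckeAlgebra.U hq hqN (Set.notMem_empty q) -
      ((a q : ℤ) : heckeAlgebra N 2 (∅ : Set ℕ)) : heckeAlgebra N 2 (∅ : Set ℕ)) :
        Module.End ℂ (CuspForm Γ₀(N) 2)) f₀ = heckeULin 2 hqN f₀ - (a q : ℂ) • f₀ := by
    rw [AddSubgroupClass.coe_sub, heckeAlgebra.coe_U, LinearMap.sub_apply]
    congr 1
    have : (((a q : ℤ) : heckeAlgebra N 2 (∅ : Set ℕ)) : Module.End ℂ (CuspForm Γ₀(N) 2)) =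
        ((a q : ℤ) : Module.End ℂ (CuspForm Γ₀(N) 2)) := by
      norm_cast
    rw [this, Module.End.intCast_apply]
    norm_cast
  rw [h1, ← qLin_apply, map_sub, map_smul, qLin_apply, qLin_apply, qCoeff_heckeULin _ hq,
    ← hf₀, ← hf₀, smul_eq_mul]
  have hm' := congrArg (Int.cast : ℤ → ℂ) hm
  push_cast at hm'
  exact hm'

theorem three_mem_congrIdeal {af : ℕ → ℤ} {f₀ : CuspForm Γ₀(N) 2}
    (hf₀ : ∀ n, (af n : ℂ) = qCoeff f₀ n) :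
    ((3 : ℕ) : heckeAlgebra N 2 (∅ : Set ℕ)) ∈ congrIdeal f₀ := by
  rw [mem_congrIdeal]
  intro n
  refine ⟨af n, ?_⟩
  have h1 : (((3 : ℕ) : heckeAlgebra N 2 (∅ : Set ℕ)) : Module.End ℂ (CuspForm Γ₀(N) 2)) f₀ =
      (3 : ℂ) • f₀ := by
    have : (((3 : ℕ) : heckeAlgebra N 2 (∅ : Set ℕ)) : Module.End ℂ (CuspForm Γ₀(N) 2)) =
        ((3 : ℕ) : Module.End ℂ (CuspForm Γ₀(N) 2)) := by
      norm_cast
    rw [this, Module.End.natCast_apply]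
    norm_cast
  rw [h1, ← qLin_apply, map_smul, qLin_apply, ← hf₀, smul_eq_mul]

theorem congrIdeal_ne_top {a af : ℕ → ℤ} (ha1 : a 1 = 1)
    (haf : ∀ n, (3 : ℤ) ∣ af n - a n) {f₀ : CuspForm Γ₀(N) 2}
    (hf₀ : ∀ n, (af n : ℂ) = qCoeff f₀ n) : congrIdeal f₀ ≠ ⊤ := by
  intro htop
  have h1 : (1 : heckeAlgebra N 2 (∅ : Set ℕ)) ∈ congrIdeal f₀ := by
    rw [htop]
    exact Submodule.mem_top
  rw [mem_congrIdeal] at h1
  obtain ⟨m, hm⟩ := h1 1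
  have h2 : ((1 : heckeAlgebra N 2 (∅ : Set ℕ)) : Module.End ℂ (CuspForm Γ₀(N) 2)) f₀ = f₀ := by
    rw [OneMemClass.coe_one, Module.End.one_apply]
  rw [h2, ← hf₀] at hm
  have hm' : af 1 = 3 * m := by exact_mod_cast hm
  have h3 := haf 1
  rw [ha1, hm'] at h3
  omega

end Fermat.Agent.S49
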